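import Fermat.Agent.RegularFLT.LogCertificate
import Mathlib.Tactic.FinCases
import Mathlib.Tactic.NormNum.Prime

/-!
# The Kummer property for `p = 5, 7, 11, 13`

Each proof supplies cyclotomic units, their logarithmic derivatives modulo `p` and a left inverse
of the matrix of these derivatives.
-/

set_option autoImplicit false

open scoped NumberField DualNumber
open Polynomial NumberField

namespace Fermat.Agent.RegularFLT

/-- The variable `t` of `𝔽_p[t]/(t^k)`. -/
local notation "root[" p ", " k "]" => AdjoinRoot.root (X ^ k : (ZMod p)[X])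

/-- The logarithmic derivatives of the chosen units, as coefficient vectors. -/
private def derivsFive : Fin 2 → Fin 2 → ZMod 5 :=
  ![![1, 0],
    ![3, 4]]

/-- A left inverse of `derivsFive`. -/
private def derivsInvFive : Fin 2 → Fin 2 → ZMod 5 :=
  ![![1, 0],
    ![3, 4]]

private theorem leftInverse_five :
    ∀ i j, ∑ d, derivsFive i d * derivsInvFive d j = if i = j then 1 else 0 := by
  decide +kernel

/-- Units of `ℤ[ζ_5]` congruent to integers modulo `5` are `5`-th powers. -/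
theorem kummerProperty_five (K : Type*) [Field K] [NumberField K]
    [IsCyclotomicExtension {5} ℚ K] : KummerProperty 5 K := by
  have : Fact (Nat.Prime 5) := ⟨by norm_num⟩
  have hζ := IsCyclotomicExtension.zeta_spec 5 ℚ K
  obtain ⟨ψ, hψ⟩ := exists_logHom hζ (k := 2) (by norm_num)
  obtain ⟨u1, hu1⟩ := isUnit_toInteger hζ
  obtain ⟨u2, hu2⟩ := exists_cycloUnit hζ (a := 2) (by norm_num)
  refine kummerProperty_of_logDeriv ψ (by norm_num) (n := 2) (by norm_num) ![u1, u2] ?_
  have key : (fun i => logDeriv ψ (![u1, u2] i)) =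
      fun i => ofCoeffs (derivsFive i) := by
    have ht : (root[5, 2] : TruncPoly 5 2) ^ 2 = 0 := root_pow_eq_zero le_rfl
    have hc : (5 : TruncPoly 5 2) = 0 := by
      rw [← map_ofNat (algebraMap (ZMod 5) (TruncPoly 5 2)),
        show (OfNat.ofNat 5 : ZMod 5) = 0 from rfl, map_zero]
    funext i
    fin_cases i
    · refine (logDeriv_zetaUnit hζ ψ hψ u1 hu1).trans ?_
      simp [ofCoeffs, derivsFive, Fin.sum_univ_succ]
    · refine logDeriv_cycloUnit hζ ψ hψ u2 hu2 ?_
      simp [ofCoeffs, derivsFive, Fin.sum_univ_succ, Finset.sum_range_succ,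
        Algebra.smul_def, map_ofNat, -AdjoinRoot.algebraMap_eq]
      linear_combination (4 : TruncPoly 5 2) * ht +
        (1 + 2 * root[5, 2]) * hc
  rw [key]
  exact ofCoeffs_linearIndependent _ _ leftInverse_five

/-- The logarithmic derivatives of the chosen units, as coefficient vectors. -/
private def derivsSeven : Fin 3 → Fin 4 → ZMod 7 :=
  ![![1, 0, 0, 0],
    ![4, 2, 6, 4],
    ![1, 3, 2, 4]]

/-- A left inverse of `derivsSeven`. -/
private def derivsInvSeven : Fin 4 → Fin 3 → ZMod 7 :=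
  ![![1, 0, 0],
    ![3, 6, 1],
    ![0, 0, 0],
    ![1, 6, 3]]

private theorem leftInverse_seven :
    ∀ i j, ∑ d, derivsSeven i d * derivsInvSeven d j = if i = j then 1 else 0 := by
  decide +kernel

/-- Units of `ℤ[ζ_7]` congruent to integers modulo `7` are `7`-th powers. -/
theorem kummerProperty_seven (K : Type*) [Field K] [NumberField K]
    [IsCyclotomicExtension {7} ℚ K] : KummerProperty 7 K := by
  have : Fact (Nat.Prime 7) := ⟨by norm_num⟩
  have hζ := IsCyclotomicExtension.zeta_spec 7 ℚ K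
  obtain ⟨ψ, hψ⟩ := exists_logHom hζ (k := 4) (by norm_num)
  obtain ⟨u1, hu1⟩ := isUnit_toInteger hζ
  obtain ⟨u2, hu2⟩ := exists_cycloUnit hζ (a := 2) (by norm_num)
  obtain ⟨u3, hu3⟩ := exists_cycloUnit hζ (a := 3) (by norm_num)
  refine kummerProperty_of_logDeriv ψ (by norm_num) (n := 3) (by norm_num) ![u1, u2, u3] ?_
  have key : (fun i => logDeriv ψ (![u1, u2, u3] i)) =
      fun i => ofCoeffs (derivsSeven i) := by
    have ht : (root[7, 4] : TruncPoly 7 4) ^ 4 = 0 := root_pow_eq_zero le_rfl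
    have hc : (7 : TruncPoly 7 4) = 0 := by
      rw [← map_ofNat (algebraMap (ZMod 7) (TruncPoly 7 4)),
        show (OfNat.ofNat 7 : ZMod 7) = 0 from rfl, map_zero]
    funext i
    fin_cases i
    · refine (logDeriv_zetaUnit hζ ψ hψ u1 hu1).trans ?_
      simp [ofCoeffs, derivsSeven, Fin.sum_univ_succ]
    · refine logDeriv_cycloUnit hζ ψ hψ u2 hu2 ?_
      simp [ofCoeffs, derivsSeven, Fin.sum_univ_succ, Finset.sum_range_succ,
        Algebra.smul_def, map_ofNat, -AdjoinRoot.algebraMap_eq]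
      linear_combination (4 : TruncPoly 7 4) * ht +
        (1 + root[7, 4] + 2 * root[7, 4] ^ 2 + 2 * root[7, 4] ^ 3) * hc
    · refine logDeriv_cycloUnit hζ ψ hψ u3 hu3 ?_
      simp [ofCoeffs, derivsSeven, Fin.sum_univ_succ, Finset.sum_range_succ,
        Algebra.smul_def, map_ofNat, -AdjoinRoot.algebraMap_eq]
      linear_combination (14 + 4 * root[7, 4]) * ht +
        (root[7, 4] + 2 * root[7, 4] ^ 2 + 3 * root[7, 4] ^ 3) * hc
  rw [key]
  exact ofCoeffs_linearIndependent _ _ leftInverse_seven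

/-- The logarithmic derivatives of the chosen units, as coefficient vectors. -/
private def derivsEleven : Fin 5 → Fin 8 → ZMod 11 :=
  ![![1, 0, 0, 0, 0, 0, 0, 0],
    ![6, 3, 4, 9, 1, 5, 3, 4],
    ![1, 8, 7, 5, 0, 2, 9, 5],
    ![7, 4, 9, 9, 4, 2, 10, 4],
    ![2, 2, 10, 2, 3, 6, 0, 0]]

/-- A left inverse of `derivsEleven`. -/
private def derivsInvEleven : Fin 8 → Fin 5 → ZMod 11 :=
  ![![1, 0, 0, 0, 0],
    ![0, 6, 7, 10, 4],
    ![0, 0, 0, 0, 0],
    ![9, 9, 8, 3, 9],
    ![0, 0, 0, 0, 0],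
    ![4, 6, 6, 3, 5],
    ![0, 0, 0, 0, 0],
    ![9, 1, 5, 4, 9]]

private theorem leftInverse_eleven :
    ∀ i j, ∑ d, derivsEleven i d * derivsInvEleven d j = if i = j then 1 else 0 := by
  decide +kernel

/-- Units of `ℤ[ζ_11]` congruent to integers modulo `11` are `11`-th powers. -/
theorem kummerProperty_eleven (K : Type*) [Field K] [NumberField K]
    [IsCyclotomicExtension {11} ℚ K] : KummerProperty 11 K := by
  have : Fact (Nat.Prime 11) := ⟨by norm_num⟩
  have hζ := IsCyclotomicExtension.zeta_spec 11 ℚ K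
  obtain ⟨ψ, hψ⟩ := exists_logHom hζ (k := 8) (by norm_num)
  obtain ⟨u1, hu1⟩ := isUnit_toInteger hζ
  obtain ⟨u2, hu2⟩ := exists_cycloUnit hζ (a := 2) (by norm_num)
  obtain ⟨u3, hu3⟩ := exists_cycloUnit hζ (a := 3) (by norm_num)
  obtain ⟨u4, hu4⟩ := exists_cycloUnit hζ (a := 4) (by norm_num)
  obtain ⟨u5, hu5⟩ := exists_cycloUnit hζ (a := 5) (by norm_num)
  refine kummerProperty_of_logDeriv ψ (by norm_num) (n := 5) (by norm_num) ![u1, u2, u3, u4, u5] ?_
  have key : (fun i => logDeriv ψ (![u1, u2, u3, u4, u5] i)) =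
      fun i => ofCoeffs (derivsEleven i) := by
    have ht : (root[11, 8] : TruncPoly 11 8) ^ 8 = 0 := root_pow_eq_zero le_rfl
    have hc : (11 : TruncPoly 11 8) = 0 := by
      rw [← map_ofNat (algebraMap (ZMod 11) (TruncPoly 11 8)),
        show (OfNat.ofNat 11 : ZMod 11) = 0 from rfl, map_zero]
    funext i
    fin_cases i
    · refine (logDeriv_zetaUnit hζ ψ hψ u1 hu1).trans ?_
      simp [ofCoeffs, derivsEleven, Fin.sum_univ_succ]
    · refine logDeriv_cycloUnit hζ ψ hψ u2 hu2 ?_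
      simp [ofCoeffs, derivsEleven, Fin.sum_univ_succ, Finset.sum_range_succ,
        Algebra.smul_def, map_ofNat, -AdjoinRoot.algebraMap_eq]
      linear_combination (4 : TruncPoly 11 8) * ht +
        (1 + root[11, 8] + root[11, 8] ^ 2 + 2 * root[11, 8] ^ 3 + root[11, 8] ^ 4 +
          root[11, 8] ^ 5 + root[11, 8] ^ 6 + root[11, 8] ^ 7) * hc
    · refine logDeriv_cycloUnit hζ ψ hψ u3 hu3 ?_
      simp [ofCoeffs, derivsEleven, Fin.sum_univ_succ, Finset.sum_range_succ,
        Algebra.smul_def, map_ofNat, -AdjoinRoot.algebraMap_eq]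
      linear_combination (24 + 5 * root[11, 8]) * ht +
        (2 * root[11, 8] + 4 * root[11, 8] ^ 2 + 4 * root[11, 8] ^ 3 + 2 * root[11, 8] ^ 4 +
          root[11, 8] ^ 5 + 3 * root[11, 8] ^ 6 + 4 * root[11, 8] ^ 7) * hc
    · refine logDeriv_cycloUnit hζ ψ hψ u4 hu4 ?_
      simp [ofCoeffs, derivsEleven, Fin.sum_univ_succ, Finset.sum_range_succ,
        Algebra.smul_def, map_ofNat, -AdjoinRoot.algebraMap_eq]
      linear_combination (66 + 26 * root[11, 8] + 4 * root[11, 8] ^ 2) * ht +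
        (2 + 4 * root[11, 8] + 7 * root[11, 8] ^ 2 + 10 * root[11, 8] ^ 3 + 10 * root[11, 8] ^ 4 +
          7 * root[11, 8] ^ 5 + 7 * root[11, 8] ^ 6 + 8 * root[11, 8] ^ 7) * hc
    · refine logDeriv_cycloUnit hζ ψ hψ u5 hu5 ?_
      simp [ofCoeffs, derivsEleven, Fin.sum_univ_succ, Finset.sum_range_succ,
        Algebra.smul_def, map_ofNat, -AdjoinRoot.algebraMap_eq]
      linear_combination (33 + 6 * root[11, 8]) * ht +
        (5 * root[11, 8] ^ 2 + 11 * root[11, 8] ^ 3 + 13 * root[11, 8] ^ 4 + 12 * root[11, 8] ^ 5 +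
          10 * root[11, 8] ^ 6 + 7 * root[11, 8] ^ 7) * hc
  rw [key]
  exact ofCoeffs_linearIndependent _ _ leftInverse_eleven

/-- The logarithmic derivatives of the chosen units, as coefficient vectors. -/
private def derivsThirteen : Fin 6 → Fin 10 → ZMod 13 :=
  ![![1, 0, 0, 0, 0, 0, 0, 0, 0, 0],
    ![7, 10, 8, 9, 2, 12, 7, 3, 5, 4],
    ![1, 5, 4, 3, 0, 12, 1, 8, 9, 10],
    ![8, 11, 1, 9, 12, 2, 12, 3, 9, 0],
    ![2, 2, 12, 5, 6, 2, 0, 2, 11, 10],
    ![9, 4, 11, 11, 4, 10, 7, 0, 0, 0]]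

/-- A left inverse of `derivsThirteen`. -/
private def derivsInvThirteen : Fin 10 → Fin 6 → ZMod 13 :=
  ![![1, 0, 0, 0, 0, 0],
    ![10, 7, 6, 8, 12, 9],
    ![0, 0, 0, 0, 0, 0],
    ![9, 6, 1, 4, 7, 5],
    ![0, 0, 0, 0, 0, 0],
    ![6, 1, 3, 8, 7, 4],
    ![0, 0, 0, 0, 0, 0],
    ![12, 12, 12, 10, 4, 10],
    ![0, 0, 0, 0, 0, 0],
    ![4, 6, 7, 11, 5, 2]]

private theorem leftInverse_thirteen :
    ∀ i j, ∑ d, derivsThirteen i d * derivsInvThirteen d j = if i = j then 1 else 0 := by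
  decide +kernel

/-- Units of `ℤ[ζ_13]` congruent to integers modulo `13` are `13`-th powers. -/
theorem kummerProperty_thirteen (K : Type*) [Field K] [NumberField K]
    [IsCyclotomicExtension {13} ℚ K] : KummerProperty 13 K := by
  have : Fact (Nat.Prime 13) := ⟨by norm_num⟩
  have hζ := IsCyclotomicExtension.zeta_spec 13 ℚ K
  obtain ⟨ψ, hψ⟩ := exists_logHom hζ (k := 10) (by norm_num)
  obtain ⟨u1, hu1⟩ := isUnit_toInteger hζ
  obtain ⟨u2, hu2⟩ := exists_cycloUnit hζ (a := 2) (by norm_num)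
  obtain ⟨u3, hu3⟩ := exists_cycloUnit hζ (a := 3) (by norm_num)
  obtain ⟨u4, hu4⟩ := exists_cycloUnit hζ (a := 4) (by norm_num)
  obtain ⟨u5, hu5⟩ := exists_cycloUnit hζ (a := 5) (by norm_num)
  obtain ⟨u6, hu6⟩ := exists_cycloUnit hζ (a := 6) (by norm_num)
  refine kummerProperty_of_logDeriv ψ (by norm_num) (n := 6) (by norm_num)
    ![u1, u2, u3, u4, u5, u6] ?_
  have key : (fun i => logDeriv ψ (![u1, u2, u3, u4, u5, u6] i)) =
      fun i => ofCoeffs (derivsThirteen i) := by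
    have ht : (root[13, 10] : TruncPoly 13 10) ^ 10 = 0 := root_pow_eq_zero le_rfl
    have hc : (13 : TruncPoly 13 10) = 0 := by
      rw [← map_ofNat (algebraMap (ZMod 13) (TruncPoly 13 10)),
        show (OfNat.ofNat 13 : ZMod 13) = 0 from rfl, map_zero]
    funext i
    fin_cases i
    · refine (logDeriv_zetaUnit hζ ψ hψ u1 hu1).trans ?_
      simp [ofCoeffs, derivsThirteen, Fin.sum_univ_succ]
    · refine logDeriv_cycloUnit hζ ψ hψ u2 hu2 ?_
      simp [ofCoeffs, derivsThirteen, Fin.sum_univ_succ, Finset.sum_range_succ,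
        Algebra.smul_def, map_ofNat, -AdjoinRoot.algebraMap_eq]
      linear_combination (4 : TruncPoly 13 10) * ht +
        (1 + 2 * root[13, 10] + 2 * root[13, 10] ^ 2 + 2 * root[13, 10] ^ 3 + root[13, 10] ^ 4 +
          2 * root[13, 10] ^ 5 + 2 * root[13, 10] ^ 6 + root[13, 10] ^ 7 + root[13, 10] ^ 8 +
          root[13, 10] ^ 9) * hc
    · refine logDeriv_cycloUnit hζ ψ hψ u3 hu3 ?_
      simp [ofCoeffs, derivsThirteen, Fin.sum_univ_succ, Finset.sum_range_succ,
        Algebra.smul_def, map_ofNat, -AdjoinRoot.algebraMap_eq]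
      linear_combination (39 + 10 * root[13, 10]) * ht +
        (root[13, 10] + 2 * root[13, 10] ^ 2 + 2 * root[13, 10] ^ 3 + root[13, 10] ^ 4 +
          3 * root[13, 10] ^ 5 + 3 * root[13, 10] ^ 6 + 3 * root[13, 10] ^ 7 +
          4 * root[13, 10] ^ 8 + 5 * root[13, 10] ^ 9) * hc
    · refine logDeriv_cycloUnit hζ ψ hψ u4 hu4 ?_
      simp [ofCoeffs, derivsThirteen, Fin.sum_univ_succ, Finset.sum_range_succ,
        Algebra.smul_def, map_ofNat, -AdjoinRoot.algebraMap_eq]
      linear_combination (39 + 9 * root[13, 10]) * ht +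
        (2 + 6 * root[13, 10] + 7 * root[13, 10] ^ 2 + 7 * root[13, 10] ^ 3 + 9 * root[13, 10] ^ 4 +
          9 * root[13, 10] ^ 5 + 9 * root[13, 10] ^ 6 + 8 * root[13, 10] ^ 7 +
          8 * root[13, 10] ^ 8 + 6 * root[13, 10] ^ 9) * hc
    · refine logDeriv_cycloUnit hζ ψ hψ u5 hu5 ?_
      simp [ofCoeffs, derivsThirteen, Fin.sum_univ_succ, Finset.sum_range_succ,
        Algebra.smul_def, map_ofNat, -AdjoinRoot.algebraMap_eq]
      linear_combination (220 + 157 * root[13, 10] + 61 * root[13, 10] ^ 2 + 10 * root[13, 10] ^ 3) * ht +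
        (5 * root[13, 10] ^ 2 + 12 * root[13, 10] ^ 3 + 16 * root[13, 10] ^ 4 +
          14 * root[13, 10] ^ 5 + 9 * root[13, 10] ^ 6 + 5 * root[13, 10] ^ 7 +
          7 * root[13, 10] ^ 8 + 14 * root[13, 10] ^ 9) * hc
    · refine logDeriv_cycloUnit hζ ψ hψ u6 hu6 ?_
      simp [ofCoeffs, derivsThirteen, Fin.sum_univ_succ, Finset.sum_range_succ,
        Algebra.smul_def, map_ofNat, -AdjoinRoot.algebraMap_eq]
      linear_combination (52 + 7 * root[13, 10]) * ht +
        (3 + 8 * root[13, 10] + 17 * root[13, 10] ^ 2 + 29 * root[13, 10] ^ 3 +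
          38 * root[13, 10] ^ 4 + 41 * root[13, 10] ^ 5 + 39 * root[13, 10] ^ 6 +
          34 * root[13, 10] ^ 7 + 25 * root[13, 10] ^ 8 + 13 * root[13, 10] ^ 9) * hc
  rw [key]
  exact ofCoeffs_linearIndependent _ _ leftInverse_thirteen

end Fermat.Agent.RegularFLT
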