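import Fermat.Agent.RegularFLT.Main
import Fermat.Agent.RegularFLT.SmallPrimes
import Fermat.Agent.CyclotomicPID.Eleven

/-!
# No Frey package has exponent `11`
-/

set_option autoImplicit false

namespace Fermat.Agent.RegularFLT

/-- There is no Frey package with exponent `11`. -/
theorem freyPackage_eleven_false (P : FreyPackage) (hP : P.p = 11) : False := by
  have : Fact (Nat.Prime 11) := ⟨by norm_num⟩
  have : NeZero ((11 : ℕ) : ℚ) := ⟨by norm_num⟩
  have : IsCyclotomicExtension {11} ℚ (CyclotomicField 11 ℚ) :=
    CyclotomicField.isCyclotomicExtension 11 ℚ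
  have := Fermat.Agent.CyclotomicPID.pid_eleven (CyclotomicField 11 ℚ)
  exact freyPackage_false (IsCyclotomicExtension.zeta_spec 11 ℚ (CyclotomicField 11 ℚ))
    (kummerProperty_eleven _) germainPrime_eleven P hP

end Fermat.Agent.RegularFLT
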