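import Mathlib.NumberTheory.NumberField.Cyclotomic.Basic
import Mathlib.NumberTheory.NumberField.Cyclotomic.Ideal
import Mathlib.RingTheory.Polynomial.Cyclotomic.Basic
import Mathlib.Algebra.CharP.Lemmas
import Mathlib.Tactic.LinearCombination

/-!
# Congruences in `ℤ[ζ_p]`

Elementary congruences modulo `λ = ζ - 1` and modulo `p`, and the Kummer property of units.
-/

set_option autoImplicit false

open scoped NumberField
open Polynomial Finset

namespace Fermat.Agent.RegularFLT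

variable {p : ℕ} [hp : Fact p.Prime] {K : Type*} [Field K] [NumberField K]
  [hK : IsCyclotomicExtension {p} ℚ K] {ζ : K} (hζ : IsPrimitiveRoot ζ p)

/-- The Kummer property: a unit congruent to an integer modulo `p` is a `p`-th power. -/
def KummerProperty (p : ℕ) (K : Type*) [Field K] : Prop :=
  ∀ u : (𝓞 K)ˣ, (∃ n : ℤ, (p : 𝓞 K) ∣ (u : 𝓞 K) - n) → ∃ v : (𝓞 K)ˣ, v ^ p = u

local notation "ζₒ" => IsPrimitiveRoot.toInteger hζ

include hζ hK

theorem exists_aeval_eq (x : 𝓞 K) : ∃ f : ℤ[X], Polynomial.aeval ζₒ f = x := by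
  have : IsCyclotomicExtension {p ^ 1} ℚ K := by rwa [pow_one]
  have hζ' : IsPrimitiveRoot ζ (p ^ 1) := by rwa [pow_one]
  obtain ⟨f, hf⟩ := hζ'.integralPowerBasisOfPrimePow.exists_eq_aeval' x
  refine ⟨f, ?_⟩
  rw [hf, IsPrimitiveRoot.integralPowerBasisOfPrimePow_gen]

/-- Every element of `ℤ[ζ_p]` is congruent to an integer modulo `λ = ζ - 1`. -/
theorem exists_int_sub_dvd (x : 𝓞 K) : ∃ n : ℤ, ζₒ - 1 ∣ x - n := by
  obtain ⟨f, rfl⟩ := exists_aeval_eq hζ x
  refine ⟨f.eval 1, ?_⟩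
  have h := sub_dvd_eval_sub ζₒ (1 : 𝓞 K) (f.map (algebraMap ℤ (𝓞 K)))
  rw [eval_map_algebraMap, eval_one_map] at h
  simpa using h

/-- `λ = ζ - 1` is prime. -/
theorem prime_sub_one : Prime (ζₒ - 1) := hζ.zeta_sub_one_prime'

/-- `λ` divides an integer exactly when `p` does. -/
theorem dvd_intCast_iff {n : ℤ} : ζₒ - 1 ∣ (n : 𝓞 K) ↔ (p : ℤ) ∣ n :=
  IsCyclotomicExtension.Rat.zeta_sub_one_dvd_intCast_iff' p hζ

/-- `λ` divides `p`. -/
theorem sub_one_dvd_natCast_prime : ζₒ - 1 ∣ (p : 𝓞 K) := hζ.toInteger_sub_one_dvd_prime'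

omit [NumberField K] hK in
theorem associated_pow_natCast : Associated ((ζₒ - 1) ^ (p - 1)) (p : 𝓞 K) :=
  IsCyclotomicExtension.Rat.associated_zeta_sub_one_pow_prime p hζ

omit [NumberField K] hK in
/-- `p` divides `λ ^ k` for `k ≥ p - 1`. -/
theorem natCast_dvd_sub_one_pow {k : ℕ} (hk : p - 1 ≤ k) : (p : 𝓞 K) ∣ (ζₒ - 1) ^ k :=
  (associated_pow_natCast hζ).symm.dvd.trans (pow_dvd_pow _ hk)

/-- A `p`-th power is congruent to an integer modulo `p`. -/
theorem exists_int_pow_sub_dvd (x : 𝓞 K) : ∃ n : ℤ, (p : 𝓞 K) ∣ x ^ p - n := by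
  obtain ⟨n, t, ht⟩ := exists_int_sub_dvd hζ x
  obtain ⟨r, hr⟩ := exists_add_pow_prime_eq hp.out (n : 𝓞 K) ((ζₒ - 1) * t)
  refine ⟨n ^ p, ?_⟩
  have hx : x = n + (ζₒ - 1) * t := by linear_combination ht
  rw [hx, hr, mul_pow]
  obtain ⟨s, hs⟩ := natCast_dvd_sub_one_pow hζ (Nat.sub_le p 1)
  refine ⟨s * t ^ p + n * ((ζₒ - 1) * t) * r, ?_⟩
  rw [hs]; push_cast; ring

omit [NumberField K] hK in
/-- `ζ ^ p = 1` in the ring of integers. -/
theorem toInteger_pow_self : ζₒ ^ p = 1 := hζ.toInteger_isPrimitiveRoot.pow_eq_one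

omit [NumberField K] hK in
/-- `ζ` is a unit of the ring of integers. -/
theorem isUnit_toInteger : IsUnit ζₒ :=
  hζ.toInteger_isPrimitiveRoot.isUnit hp.out.ne_zero

omit [NumberField K] hK in
/-- A difference of two distinct powers of `ζ` is associated to `λ`. -/
theorem associated_pow_sub_pow {i j : ℕ} (hi : i < p) (hj : j < p) (hij : i ≠ j) :
    Associated (ζₒ - 1) (ζₒ ^ i - ζₒ ^ j) := by
  wlog h : j < i generalizing i j
  · have h' := this hj hi hij.symm (by omega)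
    exact h'.trans ⟨-1, by simp⟩
  obtain ⟨d, rfl⟩ := Nat.exists_eq_add_of_lt h
  have hd : Nat.Coprime (d + 1) p := (hp.out.coprime_iff_not_dvd.mpr fun hdvd => by
    have := Nat.le_of_dvd (by omega) hdvd; omega).symm
  have h1 := hζ.toInteger_isPrimitiveRoot.associated_sub_one_pow_sub_one_of_coprime hd
  refine h1.trans ?_
  rw [show ζₒ ^ (j + d + 1) - ζₒ ^ j = ζₒ ^ j * (ζₒ ^ (d + 1) - 1) by ring]
  exact (associated_unit_mul_left _ _ ((isUnit_toInteger hζ).pow j)).symm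

omit [NumberField K] hK in
/-- `x ^ p + y ^ p` is the product of the `x + ζ ^ i y`. -/
theorem prod_add_mul (hodd : Odd p) (x y : 𝓞 K) :
    x ^ p + y ^ p = ∏ i ∈ range p, (x + ζₒ ^ i * y) := by
  rw [hζ.toInteger_isPrimitiveRoot.pow_add_pow_eq_prod_add_mul x y hodd]
  symm
  refine Finset.prod_bij (fun i _ => ζₒ ^ i) ?_ ?_ ?_ (fun i _ => rfl)
  · intro i _
    rw [mem_nthRootsFinset hp.out.pos, ← pow_mul, mul_comm, pow_mul,
      toInteger_pow_self hζ, one_pow]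
  · intro i hi j hj h
    exact hζ.toInteger_isPrimitiveRoot.pow_inj (mem_range.mp hi) (mem_range.mp hj) h
  · intro b hb
    rw [mem_nthRootsFinset hp.out.pos] at hb
    obtain ⟨i, hi, rfl⟩ := hζ.toInteger_isPrimitiveRoot.eq_pow_of_pow_eq_one hb
    exact ⟨i, mem_range.mpr hi, rfl⟩

end Fermat.Agent.RegularFLT
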