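import Mathlib.RingTheory.Int.Basic
import Mathlib.Algebra.Field.ZMod
import Mathlib.Algebra.Ring.GeomSum
import Mathlib.RingTheory.Coprime.Lemmas
import Mathlib.Tactic.LinearCombination
import Mathlib.Tactic.Ring
import Mathlib.Tactic.NormNum.Prime

/-!
# Sophie Germain's theorem

The first case of Fermat's Last Theorem for an exponent with an auxiliary Germain prime
(`firstCase`), and Germain primes for the exponents `5, 7, 11, 13`.
-/

set_option autoImplicit false

namespace Fermat.Agent.RegularFLT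

open Finset

/-- The cofactor `(x^p + y^p)/(x + y)`. -/
def cofactor (p : ℕ) (x y : ℤ) : ℤ := ∑ i ∈ range p, x ^ i * (-y) ^ (p - 1 - i)

theorem add_mul_cofactor {p : ℕ} (hp : Odd p) (x y : ℤ) :
    (x + y) * cofactor p x y = x ^ p + y ^ p := by
  have h := geom_sum₂_mul x (-y) p
  rw [hp.neg_pow] at h
  rw [cofactor]
  linear_combination h

theorem cofactor_eq_add_mul (p : ℕ) (x y : ℤ) :
    (x + y) ∣ cofactor p x y - p * x ^ (p - 1) := by
  have h : ∀ i ∈ range p, (x + y) ∣ x ^ i * (-y) ^ (p - 1 - i) - x ^ (p - 1) := by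
    intro i hi
    have hi' : i + (p - 1 - i) = p - 1 := by have := mem_range.mp hi; omega
    have h1 : x ^ i * (-y) ^ (p - 1 - i) - x ^ (p - 1)
        = x ^ i * ((-y) ^ (p - 1 - i) - x ^ (p - 1 - i)) := by
      rw [mul_sub, ← pow_add, hi']
    rw [h1]
    refine dvd_mul_of_dvd_right ?_ _
    have h2 : ((-y) - x) ∣ (-y) ^ (p - 1 - i) - x ^ (p - 1 - i) := sub_dvd_pow_sub_pow _ _ _
    have h3 : (x + y) ∣ ((-y) - x) := ⟨-1, by ring⟩
    exact h3.trans h2
  have := Finset.dvd_sum h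
  rwa [Finset.sum_sub_distrib, Finset.sum_const, Finset.card_range, nsmul_eq_mul] at this

theorem isCoprime_add_cofactor {p : ℕ} (hp : p.Prime) (hodd : Odd p) {x y z : ℤ}
    (hxy : IsCoprime x y) (h : x ^ p + y ^ p + z ^ p = 0) (hz : ¬ (p : ℤ) ∣ z) :
    IsCoprime (x + y) (cofactor p x y) := by
  obtain ⟨d, hd⟩ := cofactor_eq_add_mul p x y
  have e : cofactor p x y = p * x ^ (p - 1) + (x + y) * d := by linear_combination hd
  rw [e, IsCoprime.add_mul_left_right_iff]
  refine IsCoprime.mul_right ?_ (IsCoprime.pow_right ?_)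
  · refine ((Nat.prime_iff_prime_int.mp hp).coprime_iff_not_dvd.mpr ?_).symm
    intro hdvd
    apply hz
    apply (Nat.prime_iff_prime_int.mp hp).dvd_of_dvd_pow (n := p)
    have h2 : (p : ℤ) ∣ x ^ p + y ^ p := by
      rw [← add_mul_cofactor hodd]; exact dvd_mul_of_dvd_left hdvd _
    exact (dvd_add_right h2).mp (by rw [h]; exact dvd_zero _)
  · simpa [add_comm] using hxy.symm.add_mul_left_left 1

theorem exists_pow_pow {p : ℕ} (hp : p.Prime) (hodd : Odd p) {x y z : ℤ}
    (hxy : IsCoprime x y) (h : x ^ p + y ^ p + z ^ p = 0) (hz : ¬ (p : ℤ) ∣ z) :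
    ∃ A T : ℤ, x + y = A ^ p ∧ cofactor p x y = T ^ p ∧ (-z) = A * T := by
  have hco := isCoprime_add_cofactor hp hodd hxy h hz
  have hmul : (x + y) * cofactor p x y = (-z) ^ p := by
    rw [add_mul_cofactor hodd, hodd.neg_pow]; linear_combination h
  obtain ⟨⟨A, hA⟩, ⟨T, hT⟩⟩ := Int.eq_pow_of_mul_eq_pow_odd hco hodd hmul
  refine ⟨A, T, hA, hT, ?_⟩
  rw [hA, hT, ← mul_pow] at hmul
  exact (hodd.strictMono_pow.injective hmul).symm

/-- Sophie Germain conditions for an auxiliary prime `q`. -/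
structure GermainPrime (p q : ℕ) : Prop where
  prime : q.Prime
  no_consecutive : ∀ x y z : ZMod q, x ^ p + y ^ p + z ^ p = 0 → x = 0 ∨ y = 0 ∨ z = 0
  not_pow : ∀ x : ZMod q, x ^ p ≠ (p : ZMod q)

/-- A criterion for `GermainPrime` which is cheap to check by `decide`. -/
theorem GermainPrime.of_powSet {p q : ℕ} (hq : q.Prime) (S : List (ZMod q))
    (hS : ∀ x : ZMod q, x ^ p ∈ S) (hSS : ∀ s ∈ S, ∀ t ∈ S, s ≠ 0 → t ≠ 0 → s + t + 1 ≠ 0)
    (hpS : (p : ZMod q) ∉ S) : GermainPrime p q where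
  prime := hq
  not_pow x hx := hpS (hx ▸ hS x)
  no_consecutive x y z h := by
    have : Fact q.Prime := ⟨hq⟩
    by_contra hc
    simp only [not_or] at hc
    obtain ⟨hx, hy, hz⟩ := hc
    refine hSS _ (hS (x / z)) _ (hS (y / z)) (pow_ne_zero _ (div_ne_zero hx hz))
      (pow_ne_zero _ (div_ne_zero hy hz)) ?_
    have hzp : z ^ p ≠ 0 := pow_ne_zero _ hz
    calc (x / z) ^ p + (y / z) ^ p + 1
        = (x / z) ^ p + (y / z) ^ p + z ^ p / z ^ p := by rw [div_self hzp]
      _ = 0 := by rw [div_pow, div_pow, ← add_div, ← add_div, h, zero_div]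

private theorem firstCase_aux {p q : ℕ} (hp : p.Prime) (hodd : Odd p) (G : GermainPrime p q)
    {a b c : ℤ} (hab : IsCoprime a b) (hac : IsCoprime a c) (hbc : IsCoprime b c)
    (h : a ^ p + b ^ p + c ^ p = 0) (ha : ¬ (p : ℤ) ∣ a) (hb : ¬ (p : ℤ) ∣ b)
    (hc : ¬ (p : ℤ) ∣ c) (hqa : (q : ℤ) ∣ a) : False := by
  have : Fact q.Prime := ⟨G.prime⟩
  have qp : Prime (q : ℤ) := Nat.prime_iff_prime_int.mp G.prime
  obtain ⟨A, T, hA, hT, hAT⟩ := exists_pow_pow hp hodd hbc (by linear_combination h) ha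
  obtain ⟨B, T', hB, -, hBT⟩ := exists_pow_pow hp hodd hac (by linear_combination h) hb
  obtain ⟨C, T'', hC, -, hCT⟩ := exists_pow_pow hp hodd hab h hc
  have a0 : (a : ZMod q) = 0 := (ZMod.intCast_zmod_eq_zero_iff_dvd a q).mpr hqa
  have hA' : (b : ZMod q) + c = (A : ZMod q) ^ p := by
    exact_mod_cast congrArg (Int.cast : ℤ → ZMod q) hA
  have hB' : (a : ZMod q) + c = (B : ZMod q) ^ p := by
    exact_mod_cast congrArg (Int.cast : ℤ → ZMod q) hB
  have hC' : (a : ZMod q) + b = (C : ZMod q) ^ p := by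
    exact_mod_cast congrArg (Int.cast : ℤ → ZMod q) hC
  have c0 : (c : ZMod q) ≠ 0 := fun hc0 =>
    qp.not_isUnit (hac.isUnit_of_dvd' hqa ((ZMod.intCast_zmod_eq_zero_iff_dvd c q).mp hc0))
  have b0 : (b : ZMod q) ≠ 0 := fun hb0 =>
    qp.not_isUnit (hab.isUnit_of_dvd' hqa ((ZMod.intCast_zmod_eq_zero_iff_dvd b q).mp hb0))
  have hB0 : (B : ZMod q) ≠ 0 := fun hB0 => c0 (by
    rw [hB0, zero_pow hp.ne_zero, a0, zero_add] at hB'; exact hB')
  have hC0 : (C : ZMod q) ≠ 0 := fun hC0 => b0 (by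
    rw [hC0, zero_pow hp.ne_zero, a0, zero_add] at hC'; exact hC')
  have hA0 : (A : ZMod q) = 0 := by
    have hzero : (B : ZMod q) ^ p + (C : ZMod q) ^ p + (-(A : ZMod q)) ^ p = 0 := by
      rw [hodd.neg_pow, ← hA', ← hB', ← hC', a0]; ring
    rcases G.no_consecutive _ _ _ hzero with h1 | h1 | h1
    · exact absurd h1 hB0
    · exact absurd h1 hC0
    · exact neg_eq_zero.mp h1
  have hbc0 : (b : ZMod q) + c = 0 := by rw [hA', hA0, zero_pow hp.ne_zero]
  obtain ⟨d, hd⟩ := cofactor_eq_add_mul p b c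
  have hTp : (T : ZMod q) ^ p = (p : ZMod q) * (b : ZMod q) ^ (p - 1) := by
    have hd' := congrArg (Int.cast : ℤ → ZMod q) hd
    rw [hT] at hd'
    push_cast at hd'
    rw [hbc0, zero_mul] at hd'
    linear_combination hd'
  have hCb : (b : ZMod q) = (C : ZMod q) ^ p := by rw [← hC', a0, zero_add]
  apply G.not_pow ((T : ZMod q) / (C : ZMod q) ^ (p - 1))
  rw [div_pow, hTp, hCb, ← pow_mul, ← pow_mul, mul_comm p (p - 1)]
  exact mul_div_cancel_right₀ _ (pow_ne_zero _ hC0)

/-- Sophie Germain: no solution in the first case. -/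
theorem firstCase {p q : ℕ} (hp : p.Prime) (hodd : Odd p) (G : GermainPrime p q)
    {a b c : ℤ} (hab : IsCoprime a b) (hac : IsCoprime a c) (hbc : IsCoprime b c)
    (h : a ^ p + b ^ p + c ^ p = 0) (ha : ¬ (p : ℤ) ∣ a) (hb : ¬ (p : ℤ) ∣ b)
    (hc : ¬ (p : ℤ) ∣ c) : False := by
  have h' := congrArg (Int.cast : ℤ → ZMod q) h
  push_cast at h'
  rcases G.no_consecutive _ _ _ h' with h1 | h1 | h1
  · exact firstCase_aux hp hodd G hab hac hbc h ha hb hc
      ((ZMod.intCast_zmod_eq_zero_iff_dvd _ _).mp h1)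
  · exact firstCase_aux hp hodd G hab.symm hbc hac (by linear_combination h) hb ha hc
      ((ZMod.intCast_zmod_eq_zero_iff_dvd _ _).mp h1)
  · exact firstCase_aux hp hodd G hac.symm hbc.symm hab (by linear_combination h) hc ha hb
      ((ZMod.intCast_zmod_eq_zero_iff_dvd _ _).mp h1)

/-- An auxiliary Germain prime for the exponent `5`. -/
theorem germainPrime_five : GermainPrime 5 11 :=
  .of_powSet (by norm_num) [0, 1, 10] (by decide) (by decide) (by decide)

/-- An auxiliary Germain prime for the exponent `7`. -/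
theorem germainPrime_seven : GermainPrime 7 29 :=
  .of_powSet (by norm_num) [0, 1, 12, 17, 28] (by decide) (by decide) (by decide)

/-- An auxiliary Germain prime for the exponent `11`. -/
theorem germainPrime_eleven : GermainPrime 11 23 :=
  .of_powSet (by norm_num) [0, 1, 22] (by decide) (by decide) (by decide)

/-- An auxiliary Germain prime for the exponent `13`. -/
theorem germainPrime_thirteen : GermainPrime 13 53 :=
  .of_powSet (by norm_num) [0, 1, 23, 30, 52] (by decide +kernel) (by decide +kernel)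
    (by decide +kernel)

end Fermat.Agent.RegularFLT
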