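import Fermat.Agent.RegularFLT.Units
import Mathlib.Data.Matrix.Mul
import Mathlib.Algebra.BigOperators.Fin

/-!
# Certificates for the Kummer property

Logarithmic derivatives of cyclotomic units, and their linear independence, are read off from
explicit coefficient vectors modulo `p`.
-/

set_option autoImplicit false

open scoped NumberField DualNumber
open Polynomial NumberField

namespace Fermat.Agent.RegularFLT

/-- The element of `𝔽_p[t]/(t^k)` with the given coefficients. -/
noncomputable def ofCoeffs {p k : ℕ} (c : Fin k → ZMod p) : TruncPoly p k :=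
  ∑ d, c d • AdjoinRoot.root _ ^ (d : ℕ)

theorem ofCoeffs_eq_zero {p k : ℕ} [Fact p.Prime] {c : Fin k → ZMod p} (h : ofCoeffs c = 0) :
    c = 0 := by
  have hm : (∑ d, C (c d) * X ^ (d : ℕ) : (ZMod p)[X]) = 0 := by
    have hdvd : (X ^ k : (ZMod p)[X]) ∣ ∑ d : Fin k, C (c d) * X ^ (d : ℕ) := by
      rw [← AdjoinRoot.mk_eq_zero, ← h, ofCoeffs, map_sum]
      refine Finset.sum_congr rfl fun d _ => ?_
      rw [map_mul, map_pow, AdjoinRoot.mk_X, AdjoinRoot.mk_C, Algebra.smul_def,
        AdjoinRoot.algebraMap_eq]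
    ext m
    rcases lt_or_ge m k with hm | hm
    · rw [coeff_zero]; exact X_pow_dvd_iff.mp hdvd m hm
    · rw [coeff_zero, finsetSum_coeff]
      refine Finset.sum_eq_zero fun d _ => ?_
      rw [coeff_C_mul_X_pow, if_neg (by omega)]
  funext d
  have := congrArg (fun q : (ZMod p)[X] => q.coeff (d : ℕ)) hm
  simpa [finsetSum_coeff, coeff_C_mul_X_pow, Fin.val_inj] using this

/-- A left inverse certificate proves linear independence of the truncated polynomials. -/
theorem ofCoeffs_linearIndependent {p k n : ℕ} [Fact p.Prime] (W : Fin n → Fin k → ZMod p)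
    (Z : Fin k → Fin n → ZMod p) (h : ∀ i j, ∑ d, W i d * Z d j = if i = j then 1 else 0) :
    LinearIndependent (ZMod p) (fun i => ofCoeffs (W i)) := by
  rw [Fintype.linearIndependent_iff]
  intro e he j
  have hc : (fun d => ∑ i, e i * W i d) = 0 := by
    apply ofCoeffs_eq_zero
    rw [← he]
    simp only [ofCoeffs, Finset.smul_sum, smul_smul, Finset.sum_smul]
    exact Finset.sum_comm
  calc e j = ∑ i, e i * (if i = j then 1 else 0) := by simp
    _ = ∑ d, (∑ i, e i * W i d) * Z d j := by
        simp only [← h, Finset.mul_sum, Finset.sum_mul]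
        rw [Finset.sum_comm]
        exact Finset.sum_congr rfl fun d _ => Finset.sum_congr rfl fun i _ => by ring
    _ = 0 := by simp [congrFun hc]

variable {p : ℕ} [hp : Fact p.Prime] {K : Type*} [Field K] [NumberField K]
  [hK : IsCyclotomicExtension {p} ℚ K] {ζ : K} (hζ : IsPrimitiveRoot ζ p)

local notation "ζₒ" => IsPrimitiveRoot.toInteger hζ

include hζ hK

omit [NumberField K] hK in
/-- The logarithmic derivative of the root of unity `ζ` is `1`. -/
theorem logDeriv_zetaUnit {k : ℕ} (ψ : 𝓞 K →+* DualNumber (TruncPoly p k))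
    (hψ : ψ ζₒ = logPoint p k) (u : (𝓞 K)ˣ) (hu : (u : 𝓞 K) = ζₒ) :
    logDeriv ψ u = 1 :=
  logDeriv_eq_of_mul_eq ψ u (by simp [hu, hψ, logPoint])

omit [NumberField K] hK in
/-- The logarithmic derivative of a cyclotomic unit, from a certificate. -/
theorem logDeriv_cycloUnit {k : ℕ} (ψ : 𝓞 K →+* DualNumber (TruncPoly p k))
    (hψ : ψ ζₒ = logPoint p k) {a : ℕ} (u : (𝓞 K)ˣ)
    (hu : (u : 𝓞 K) = ∑ i ∈ Finset.range a, ζₒ ^ i) {w : TruncPoly p k}
    (h : (∑ i ∈ Finset.range a, (1 + AdjoinRoot.root (X ^ k : (ZMod p)[X])) ^ i) * w =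
      ∑ i ∈ Finset.range a, (i : TruncPoly p k) * (1 + AdjoinRoot.root _) ^ i) :
    logDeriv ψ u = w := by
  refine logDeriv_eq_of_mul_eq ψ u ?_
  rw [hu, map_sum, TrivSqZeroExt.fst_sum, TrivSqZeroExt.snd_sum]
  simp only [map_pow, hψ, TrivSqZeroExt.fst_pow, TrivSqZeroExt.snd_pow]
  convert h using 1
  · simp [logPoint]
  · refine Finset.sum_congr rfl fun i _ => ?_
    rcases i with _ | i
    · simp
    · simp [logPoint, pow_succ]

end Fermat.Agent.RegularFLT
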