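import Fermat.Agent.RegularFLT.Basic
import Mathlib.RingTheory.PrincipalIdealDomain
import Mathlib.RingTheory.Coprime.Lemmas
import Mathlib.Algebra.Field.ZMod

/-!
# Kummer's descent

The second case of Fermat's Last Theorem for a prime `p` such that `ℤ[ζ_p]` is principal and
units congruent to integers modulo `p` are `p`-th powers.
-/

set_option autoImplicit false

open scoped NumberField
open Finset

namespace Fermat.Agent.RegularFLT

/-- Pairwise coprime factors of a unit times an `n`-th power are units times `n`-th powers. -/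
theorem exists_associated_pow_of_prod_eq {R ι : Type*} [CommRing R] [IsDomain R]
    [IsPrincipalIdealRing R] [DecidableEq ι] {s : Finset ι} {c : ι → R} {ε : Rˣ} {z : R} {n : ℕ}
    (hprod : ∏ i ∈ s, c i = ε * z ^ n)
    (hcop : ∀ i ∈ s, ∀ j ∈ s, i ≠ j → IsCoprime (c i) (c j)) :
    ∀ i ∈ s, ∃ w, Associated (w ^ n) (c i) := by
  intro i hi
  rw [← mul_prod_erase _ _ hi] at hprod
  refine exists_associated_pow_of_mul_eq_pow' (b := (↑ε⁻¹ : R) * ∏ j ∈ s.erase i, c j) (c := z)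
    ?_ ?_
  · rw [isCoprime_mul_unit_left_right (Units.isUnit _)]
    exact IsCoprime.prod_right fun j hj =>
      hcop i hi j (mem_of_mem_erase hj) (Ne.symm (ne_of_mem_erase hj))
  · linear_combination (↑ε⁻¹ : R) * hprod + z ^ n * ε.inv_mul

variable {p : ℕ} [hp : Fact p.Prime] {K : Type*} [Field K] [NumberField K]
  [hK : IsCyclotomicExtension {p} ℚ K] {ζ : K} (hζ : IsPrimitiveRoot ζ p)

local notation "ζₒ" => IsPrimitiveRoot.toInteger hζ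

include hζ hK

/-- If `λ ∣ x + y` then some twist `x + ζ^i y` is divisible by `λ²`. -/
theorem exists_sq_dvd_twist {x y : 𝓞 K} (hy : ¬ ζₒ - 1 ∣ y) (h : ζₒ - 1 ∣ x + y) :
    ∃ i, i < p ∧ (ζₒ - 1) ^ 2 ∣ x + ζₒ ^ i * y := by
  obtain ⟨s, hs⟩ := h
  obtain ⟨n, s', hn⟩ := exists_int_sub_dvd hζ s
  obtain ⟨k, y', hk⟩ := exists_int_sub_dvd hζ y
  have hk0 : (k : ZMod p) ≠ 0 := by
    rw [Ne, ZMod.intCast_zmod_eq_zero_iff_dvd]
    intro hdvd
    have := (dvd_intCast_iff hζ).mpr hdvd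
    exact hy ⟨y' + this.choose, by linear_combination hk + this.choose_spec⟩
  set i := (-(n : ZMod p) / (k : ZMod p)).val with hi
  refine ⟨i, ZMod.val_lt _, ?_⟩
  have hdvd : (p : ℤ) ∣ n + i * k := by
    rw [← ZMod.intCast_zmod_eq_zero_iff_dvd]
    push_cast
    rw [hi, ZMod.natCast_zmod_val, div_mul_cancel₀ _ hk0]
    ring
  obtain ⟨c, hc⟩ := (dvd_intCast_iff hζ).mpr hdvd
  push_cast at hc
  -- `ζ ^ i = 1 + i λ + λ² e`
  obtain ⟨e, he⟩ : ∃ e, ζₒ ^ i = 1 + (i : 𝓞 K) * (ζₒ - 1) + (ζₒ - 1) ^ 2 * e := by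
    clear_value i
    clear hi hdvd hc
    induction i with
    | zero => exact ⟨0, by simp⟩
    | succ j ih =>
      obtain ⟨e, he⟩ := ih
      exact ⟨(j : 𝓞 K) + ζₒ * e, by push_cast; rw [pow_succ, he]; ring⟩
  refine ⟨s' + (i : 𝓞 K) * y' + c + e * y, ?_⟩
  rw [he]
  linear_combination hs + (ζₒ - 1) * hn + (ζₒ - 1) * (i : 𝓞 K) * hk + (ζₒ - 1) * hc

/-- `1 + ζ` is a unit for odd `p`. -/
theorem isUnit_one_add_toInteger (hp3 : 3 ≤ p) : IsUnit (1 + ζₒ) := by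
  have h2 : Nat.Coprime 2 p := (Nat.coprime_primes Nat.prime_two hp.out).mpr (by omega)
  obtain ⟨v, hv⟩ := hζ.toInteger_isPrimitiveRoot.associated_sub_one_pow_sub_one_of_coprime h2
  refine ⟨v, mul_left_cancel₀ (prime_sub_one hζ).ne_zero ?_⟩
  linear_combination hv

/-- If `λ` divides `x ^ p + y ^ p`, it divides `x + y`. -/
theorem dvd_add_of_dvd_pow_add_pow (hodd : Odd p) {x y : 𝓞 K} (h : ζₒ - 1 ∣ x ^ p + y ^ p) :
    ζₒ - 1 ∣ x + y := by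
  rw [prod_add_mul hζ hodd] at h
  obtain ⟨i, -, hi⟩ := (prime_sub_one hζ).exists_mem_finset_dvd h
  have h3 := dvd_sub hi (dvd_mul_of_dvd_left (sub_one_dvd_pow_sub_one ζₒ i) y)
  rwa [show x + ζₒ ^ i * y - (ζₒ ^ i - 1) * y = x + y by ring] at h3

/-- The quotients `(x + ζ^i y)/λ` are pairwise coprime. -/
theorem isCoprime_quotients {x y : 𝓞 K} (hxy : IsCoprime x y) {a : ℕ → 𝓞 K}
    (ha : ∀ i, x + ζₒ ^ i * y = (ζₒ - 1) * a i) {i j : ℕ} (hi : i < p) (hj : j < p)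
    (hij : i ≠ j) : IsCoprime (a i) (a j) := by
  have hl0 := (prime_sub_one hζ).ne_zero
  obtain ⟨u, hu⟩ := associated_pow_sub_pow hζ hi hj hij
  obtain ⟨r, s, hrs⟩ := hxy
  have e1 : a i - a j = u * y := by
    refine mul_left_cancel₀ hl0 ?_
    linear_combination -(ha i) + ha j - y * hu
  have e2 : ζₒ ^ i * a j - ζₒ ^ j * a i = u * x := by
    refine mul_left_cancel₀ hl0 ?_
    linear_combination (ζₒ ^ j) * ha i - ζₒ ^ i * ha j - x * hu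
  refine ⟨(↑u⁻¹ : 𝓞 K) * (s - r * ζₒ ^ j), (↑u⁻¹ : 𝓞 K) * (r * ζₒ ^ i - s), ?_⟩
  linear_combination (↑u⁻¹ : 𝓞 K) * s * e1 + (↑u⁻¹ : 𝓞 K) * r * e2 +
    (r * x + s * y) * u.inv_mul + hrs

/-- If the quotients multiply to a unit times `λ ^ (p m) z ^ p` and only the one at `0` is
divisible by `λ`, then it carries exactly `λ ^ (p m)`, and `m` is positive. -/
theorem exists_quotient_zero_eq {a : ℕ → 𝓞 K} {z : 𝓞 K} {ε : (𝓞 K)ˣ} {m : ℕ}
    (hz : ¬ ζₒ - 1 ∣ z) (ha0 : ζₒ - 1 ∣ a 0)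
    (hndvd : ∀ i, i < p → i ≠ 0 → ¬ ζₒ - 1 ∣ a i)
    (hprod : ∏ i ∈ range p, a i = (ε : 𝓞 K) * (ζₒ - 1) ^ (p * m) * z ^ p) :
    1 ≤ m ∧ ∃ b, a 0 = (ζₒ - 1) ^ (p * m) * b ∧ ¬ ζₒ - 1 ∣ b ∧
      ∏ i ∈ range p, Function.update a 0 b i = (ε : 𝓞 K) * z ^ p := by
  have hlp := prime_sub_one hζ
  have hεz : ¬ ζₒ - 1 ∣ (ε : 𝓞 K) * z ^ p := fun h => (hlp.dvd_or_dvd h).elim
    (fun h2 => hlp.not_isUnit (isUnit_of_dvd_unit h2 ε.isUnit))
    (fun h2 => hz (hlp.dvd_of_dvd_pow h2))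
  have h0mem : 0 ∈ range p := mem_range.mpr hp.out.pos
  have hrest : ¬ ζₒ - 1 ∣ ∏ i ∈ (range p).erase 0, a i := fun h => by
    obtain ⟨i, hi, hdvd⟩ := hlp.exists_mem_finset_dvd h
    exact hndvd i (mem_range.mp (mem_of_mem_erase hi)) (ne_of_mem_erase hi) hdvd
  rw [← mul_prod_erase _ _ h0mem] at hprod
  have hm : 1 ≤ m := Nat.one_le_iff_ne_zero.mpr fun hm0 => by
    subst hm0
    rw [mul_zero, pow_zero, mul_one] at hprod
    exact hεz (hprod ▸ dvd_mul_of_dvd_left ha0 _)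
  obtain ⟨b, hb⟩ : (ζₒ - 1) ^ (p * m) ∣ a 0 :=
    hlp.pow_dvd_of_dvd_mul_right _ hrest (hprod ▸ ⟨(ε : 𝓞 K) * z ^ p, by ring⟩)
  have hb' : b * ∏ i ∈ (range p).erase 0, a i = (ε : 𝓞 K) * z ^ p := by
    refine mul_left_cancel₀ (pow_ne_zero (p * m) hlp.ne_zero) ?_
    rw [← mul_assoc, ← hb, hprod]; ring
  refine ⟨hm, b, hb, fun h => hεz (hb' ▸ dvd_mul_of_dvd_left h _), ?_⟩
  rw [← mul_prod_erase _ _ h0mem, Function.update_self, ← hb']
  exact congrArg (b * ·) (prod_congr rfl fun i hi =>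
    Function.update_of_ne (ne_of_mem_erase hi) _ _)

/-- In the descended equation the unit on `β ^ p` is congruent to an integer modulo `p`, hence
a `p`-th power. -/
theorem exists_pow_eq_of_pow_add_mul_pow (hkum : KummerProperty p K) {α β w : 𝓞 K}
    {e₁ e₂ : (𝓞 K)ˣ} {m : ℕ} (hm : 1 ≤ m) (hβ : ¬ ζₒ - 1 ∣ β)
    (key : α ^ p + (e₁ : 𝓞 K) * β ^ p = (e₂ : 𝓞 K) * ((ζₒ - 1) ^ m * w) ^ p) :
    ∃ v : (𝓞 K)ˣ, v ^ p = e₁ := by
  apply hkum
  obtain ⟨n₁, r₁, hn₁⟩ := exists_int_pow_sub_dvd hζ α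
  obtain ⟨n₂, r₂, hn₂⟩ := exists_int_pow_sub_dvd hζ β
  have hn20 : (n₂ : ZMod p) ≠ 0 := by
    rw [Ne, ZMod.intCast_zmod_eq_zero_iff_dvd]
    intro hdvd
    refine hβ ((prime_sub_one hζ).dvd_of_dvd_pow (n := p) ?_)
    rw [show β ^ p = n₂ + (p : 𝓞 K) * r₂ by linear_combination hn₂]
    exact dvd_add ((dvd_intCast_iff hζ).mpr hdvd)
      (dvd_mul_of_dvd_left (sub_one_dvd_natCast_prime hζ) _)
  obtain ⟨k, c, hc⟩ : ∃ k : ℤ, (p : ℤ) ∣ n₂ * k - 1 := by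
    obtain ⟨k, hk⟩ := ZMod.intCast_surjective ((n₂ : ZMod p)⁻¹)
    refine ⟨k, (ZMod.intCast_zmod_eq_zero_iff_dvd _ _).mp ?_⟩
    push_cast
    rw [hk, mul_inv_cancel₀ hn20, sub_self]
  have hc' : (n₂ : 𝓞 K) * k - 1 = (p : 𝓞 K) * c := by
    exact_mod_cast congrArg (Int.cast : ℤ → 𝓞 K) hc
  obtain ⟨d, hd⟩ : (p : 𝓞 K) ∣ (ζₒ - 1) ^ (p * m) :=
    natCast_dvd_sub_one_pow hζ ((Nat.sub_le p 1).trans (Nat.le_mul_of_pos_right p hm))
  refine ⟨-(n₁ * k), (k : 𝓞 K) * ((e₂ : 𝓞 K) * d * w ^ p) - (k : 𝓞 K) * r₁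
    - (k : 𝓞 K) * (e₁ : 𝓞 K) * r₂ - (e₁ : 𝓞 K) * c, ?_⟩
  have key' : α ^ p + (e₁ : 𝓞 K) * β ^ p = (e₂ : 𝓞 K) * ((p : 𝓞 K) * d * w ^ p) := by
    rw [← hd, key, mul_pow, ← pow_mul, mul_comm m p]
  push_cast
  linear_combination (k : 𝓞 K) * key' - (k : 𝓞 K) * hn₁ - (k : 𝓞 K) * (e₁ : 𝓞 K) * hn₂
    - (e₁ : 𝓞 K) * hc'

/-- One step of the descent: a solution with exponent `m + 1` and `λ² ∣ x + y` gives one with
exponent `m ≥ 1`. -/
theorem descent_step [IsPrincipalIdealRing (𝓞 K)] (hp3 : 3 ≤ p) (hkum : KummerProperty p K)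
    {m : ℕ} {x y z : 𝓞 K} {ε : (𝓞 K)ˣ} (hsq : (ζₒ - 1) ^ 2 ∣ x + y) (hxy : IsCoprime x y)
    (hz : ¬ ζₒ - 1 ∣ z) (heq : x ^ p + y ^ p = ε * ((ζₒ - 1) ^ (m + 1) * z) ^ p) :
    ∃ (α β w : 𝓞 K) (e : (𝓞 K)ˣ), 1 ≤ m ∧ IsCoprime α β ∧ ¬ ζₒ - 1 ∣ α ∧ ¬ ζₒ - 1 ∣ β ∧
      ¬ ζₒ - 1 ∣ w ∧ α ^ p + β ^ p = e * ((ζₒ - 1) ^ m * w) ^ p := by
  have hodd : Odd p := hp.out.odd_of_ne_two (by omega)
  have h1ζ := isUnit_one_add_toInteger hζ hp3
  set l := ζₒ - 1 with hl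
  have hlp : Prime l := prime_sub_one hζ
  have hl0 : l ≠ 0 := hlp.ne_zero
  -- the quotients by `l`: pairwise coprime, and only `a 0` is divisible by `l`
  have hF : ∀ i, l ∣ x + ζₒ ^ i * y := fun i => by
    have h3 := dvd_add ((dvd_pow_self l two_ne_zero).trans hsq)
      (dvd_mul_of_dvd_left (sub_one_dvd_pow_sub_one ζₒ i) y)
    rwa [show x + y + (ζₒ ^ i - 1) * y = x + ζₒ ^ i * y by ring] at h3
  choose a ha using hF
  have ha0 : l ∣ a 0 := by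
    have h : l ^ 2 ∣ l * a 0 := by rw [← ha 0]; simpa using hsq
    rwa [pow_two, mul_dvd_mul_iff_left hl0] at h
  have hcop := fun {i j : ℕ} => isCoprime_quotients hζ hxy ha (i := i) (j := j)
  have hndvd : ∀ i, i < p → i ≠ 0 → ¬ l ∣ a i := fun i hi hi0 hdvd =>
    hlp.not_isUnit ((hcop hi hp.out.pos hi0).isUnit_of_dvd' hdvd ha0)
  have hprod : ∏ i ∈ range p, a i = (ε : 𝓞 K) * l ^ (p * m) * z ^ p := by
    refine mul_left_cancel₀ (pow_ne_zero p hl0) ?_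
    calc l ^ p * ∏ i ∈ range p, a i = ∏ i ∈ range p, (x + ζₒ ^ i * y) := by
          rw [Finset.prod_congr rfl (fun i _ => ha i), prod_mul_distrib, prod_const, card_range]
      _ = l ^ p * ((ε : 𝓞 K) * l ^ (p * m) * z ^ p) := by
          rw [← prod_add_mul hζ hodd, heq, mul_pow, ← pow_mul, mul_comm (m + 1) p, mul_add_one,
            pow_add]
          ring
  obtain ⟨hm, b, hb, hbndvd, hc⟩ := exists_quotient_zero_eq hζ hz ha0 hndvd hprod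
  -- `b` and the other quotients are units times `p`-th powers
  have hbcop : ∀ i, i < p → i ≠ 0 → IsCoprime b (a i) := fun i hi hi0 =>
    IsCoprime.of_mul_left_right (hb ▸ hcop hp.out.pos hi (Ne.symm hi0) :
      IsCoprime (l ^ (p * m) * b) (a i))
  have hpow := exists_associated_pow_of_prod_eq hc fun i hi j hj hij => by
    rcases eq_or_ne i 0 with rfl | hi0
    · rw [Function.update_self, Function.update_of_ne (Ne.symm hij)]
      exact hbcop j (mem_range.mp hj) (Ne.symm hij)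
    rcases eq_or_ne j 0 with rfl | hj0
    · rw [Function.update_self, Function.update_of_ne hij]
      exact (hbcop i (mem_range.mp hi) hij).symm
    · rw [Function.update_of_ne hi0, Function.update_of_ne hj0]
      exact hcop (mem_range.mp hi) (mem_range.mp hj) hij
  have h1p : (1 : ℕ) < p := by omega
  have hqp : p - 1 < p := by omega
  have hq0 : p - 1 ≠ 0 := by omega
  obtain ⟨w₀, u₀, hu₀⟩ := hpow 0 (mem_range.mpr hp.out.pos)
  obtain ⟨α, u₁, hu₁⟩ := hpow 1 (mem_range.mpr h1p)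
  obtain ⟨β, u₂, hu₂⟩ := hpow (p - 1) (mem_range.mpr hqp)
  rw [Function.update_self] at hu₀
  rw [Function.update_of_ne one_ne_zero] at hu₁
  rw [Function.update_of_ne hq0] at hu₂
  -- the three term identity
  have hzz : ζₒ * ζₒ ^ (p - 1) = 1 := by
    rw [← pow_succ', Nat.sub_add_cancel (by omega : 1 ≤ p), toInteger_pow_self hζ]
  have hid : a 1 + ζₒ * a (p - 1) = (1 + ζₒ) * a 0 := by
    refine mul_left_cancel₀ hl0 ?_
    linear_combination -ha 1 - ζₒ * ha (p - 1) + (1 + ζₒ) * ha 0 + y * hzz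
  set e₁ : (𝓞 K)ˣ := (isUnit_toInteger hζ).unit * u₂ * u₁⁻¹ with he₁
  set e₂ : (𝓞 K)ˣ := h1ζ.unit * u₀ * u₁⁻¹ with he₂
  have key : α ^ p + (e₁ : 𝓞 K) * β ^ p = (e₂ : 𝓞 K) * (l ^ m * w₀) ^ p := by
    rw [he₁, he₂]
    simp only [Units.val_mul, IsUnit.unit_spec]
    rw [hb, ← hu₀, ← hu₁, ← hu₂] at hid
    rw [mul_pow, ← pow_mul, mul_comm m p]
    linear_combination (↑u₁⁻¹ : 𝓞 K) * hid - α ^ p * u₁.mul_inv
  have hβ : ¬ l ∣ β := fun h =>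
    hndvd _ hqp hq0 (hu₂ ▸ dvd_mul_of_dvd_left (dvd_pow h hp.out.ne_zero) _)
  obtain ⟨v, hv⟩ := exists_pow_eq_of_pow_add_mul_pow hζ hkum hm hβ key
  refine ⟨α, (v : 𝓞 K) * β, w₀, e₂, hm, ?_,
    fun h => hndvd 1 h1p one_ne_zero (hu₁ ▸ dvd_mul_of_dvd_left (dvd_pow h hp.out.ne_zero) _),
    fun h => hβ (v.isUnit.dvd_mul_left.mp h),
    fun h => hbndvd (hu₀ ▸ dvd_mul_of_dvd_left (dvd_pow h hp.out.ne_zero) _),
    by rw [← key, mul_pow, ← Units.val_pow_eq_pow_val, hv]⟩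
  rw [isCoprime_mul_unit_left_right v.isUnit]
  have := hcop h1p hqp (by omega)
  rw [← hu₁, ← hu₂, isCoprime_mul_unit_right_left u₁.isUnit,
    isCoprime_mul_unit_right_right u₂.isUnit] at this
  exact (IsCoprime.pow_iff hp.out.pos hp.out.pos).mp this

/-- Kummer's descent. -/
theorem secondCase_descent [IsPrincipalIdealRing (𝓞 K)] (hp3 : 3 ≤ p)
    (hkum : KummerProperty p K) :
    ∀ (m : ℕ) (x y z : 𝓞 K) (ε : (𝓞 K)ˣ), 1 ≤ m → IsCoprime x y → ¬ ζₒ - 1 ∣ x →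
      ¬ ζₒ - 1 ∣ y → ¬ ζₒ - 1 ∣ z →
      x ^ p + y ^ p ≠ ε * ((ζₒ - 1) ^ m * z) ^ p := by
  intro m
  induction m with
  | zero => intro x y z ε hm; omega
  | succ m IH =>
    intro x y z ε _ hxy _ hy hz heq
    have hlsum : ζₒ - 1 ∣ x + y := by
      refine dvd_add_of_dvd_pow_add_pow hζ (hp.out.odd_of_ne_two (by omega)) ?_
      rw [heq]
      exact dvd_mul_of_dvd_right
        (dvd_pow (dvd_mul_of_dvd_left (dvd_pow_self _ (by omega)) _) hp.out.ne_zero) _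
    -- twist so that `λ² ∣ x + y`
    obtain ⟨i, -, hi⟩ := exists_sq_dvd_twist hζ hy hlsum
    obtain ⟨α, β, w, e, hm, hαβ, hα, hβ, hw, h⟩ := descent_step hζ hp3 hkum hi
      ((isCoprime_mul_unit_left_right ((isUnit_toInteger hζ).pow i) _ _).mpr hxy) hz
      (by rw [mul_pow, ← pow_mul, mul_comm i p, pow_mul, toInteger_pow_self hζ, one_pow, one_mul,
        heq])
    exact IH α β w e hm hαβ hα hβ hw h

end Fermat.Agent.RegularFLT
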