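import Fermat.Agent.RegularFLT.FirstCase
import Fermat.Agent.RegularFLT.SecondCase
import Fermat.Prelude.Def_FLTPrelim_FreyPackage
import Mathlib.RingTheory.UniqueFactorizationDomain.Multiplicity
import Mathlib.Data.Int.GCD

/-!
# Fermat's Last Theorem for exponents with the Kummer property

Fermat's Last Theorem for a prime exponent `p` with principal `ℤ[ζ_p]`, the Kummer property and
an auxiliary Germain prime; specialised to Frey packages.
-/

set_option autoImplicit false

open scoped NumberField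

namespace Fermat.Agent.RegularFLT

variable {p q : ℕ} [hp : Fact p.Prime] {K : Type*} [Field K] [NumberField K]
  [hK : IsCyclotomicExtension {p} ℚ K] {ζ : K} (hζ : IsPrimitiveRoot ζ p)

include hζ hK

/-- The second case, `p ∣ c`, for pairwise coprime integers. -/
theorem secondCase [IsPrincipalIdealRing (𝓞 K)] (hp3 : 3 ≤ p) (hkum : KummerProperty p K)
    {a b c : ℤ} (hab : IsCoprime a b) (hac : IsCoprime a c) (hbc : IsCoprime b c) (hc0 : c ≠ 0)
    (h : a ^ p + b ^ p + c ^ p = 0) (hpc : (p : ℤ) ∣ c) : False := by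
  have hodd : Odd p := hp.out.odd_of_ne_two (by omega)
  have pp : Prime (p : ℤ) := Nat.prime_iff_prime_int.mp hp.out
  set l := hζ.toInteger - 1 with hl
  have hlp : Prime l := prime_sub_one hζ
  have hla : ¬ l ∣ (a : 𝓞 K) := fun hd =>
    pp.not_isUnit (hac.isUnit_of_dvd' ((dvd_intCast_iff hζ).mp hd) hpc)
  have hlb : ¬ l ∣ (b : 𝓞 K) := fun hd =>
    pp.not_isUnit (hbc.isUnit_of_dvd' ((dvd_intCast_iff hζ).mp hd) hpc)
  have hlc : l ∣ -(c : 𝓞 K) := dvd_neg.mpr ((dvd_intCast_iff hζ).mpr hpc)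
  have hne : -(c : 𝓞 K) ≠ 0 := neg_ne_zero.mpr (Int.cast_ne_zero.mpr hc0)
  obtain ⟨m, z, hz, hmz⟩ :=
    WfDvdMonoid.max_power_factor hne hlp.irreducible
  have hm : 1 ≤ m := by
    by_contra hm0
    obtain rfl : m = 0 := by omega
    rw [pow_zero, one_mul] at hmz
    exact hz (hmz ▸ hlc)
  refine secondCase_descent hζ hp3 hkum m (a : 𝓞 K) (b : 𝓞 K) z 1 hm ?_ hla hlb hz ?_
  · exact hab.map (Int.castRingHom (𝓞 K))
  · rw [← hmz, hodd.neg_pow, Units.val_one, one_mul, eq_neg_iff_add_eq_zero]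
    exact_mod_cast congrArg (Int.cast : ℤ → 𝓞 K) h

/-- FLT for a regular exponent, coprime form. -/
theorem flt_of_data [IsPrincipalIdealRing (𝓞 K)] (hp3 : 3 ≤ p) (hkum : KummerProperty p K)
    (G : GermainPrime p q) {a b c : ℤ} (ha0 : a ≠ 0) (hb0 : b ≠ 0) (hc0 : c ≠ 0)
    (hab : IsCoprime a b) (hac : IsCoprime a c) (hbc : IsCoprime b c)
    (h : a ^ p + b ^ p + c ^ p = 0) : False := by
  have hodd : Odd p := hp.out.odd_of_ne_two (by omega)
  by_cases hpa : (p : ℤ) ∣ a
  · exact secondCase hζ hp3 hkum hbc hab.symm hac.symm ha0 (by linear_combination h) hpa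
  by_cases hpb : (p : ℤ) ∣ b
  · exact secondCase hζ hp3 hkum hac hab hbc.symm hb0 (by linear_combination h) hpb
  by_cases hpc : (p : ℤ) ∣ c
  · exact secondCase hζ hp3 hkum hab hac hbc hc0 h hpc
  exact firstCase hp.out hodd G hab hac hbc h hpa hpb hpc

/-- There is no Frey package with exponent `p`. -/
theorem freyPackage_false [IsPrincipalIdealRing (𝓞 K)] (hkum : KummerProperty p K)
    (G : GermainPrime p q) (P : FreyPackage) (hP : P.p = p) : False := by
  subst hP
  refine flt_of_data hζ (by have := P.hp5; omega) hkum G P.ha0 P.hb0 (neg_ne_zero.mpr P.hc0)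
    (Int.isCoprime_iff_gcd_eq_one.mpr ?_)
    ((Int.isCoprime_iff_gcd_eq_one.mpr ?_).neg_right)
    ((Int.isCoprime_iff_gcd_eq_one.mpr ?_).neg_right) ?_
  · exact_mod_cast (Int.coe_gcd P.a P.b).trans P.hgcdab
  · exact_mod_cast (Int.coe_gcd P.a P.c).trans P.hgcdac
  · exact_mod_cast (Int.coe_gcd P.b P.c).trans P.hgcdbc
  · rw [P.hp_odd.neg_pow]; linear_combination P.hFLT

end Fermat.Agent.RegularFLT
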