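import Fermat.Agent.RegularFLT.Basic
import Mathlib.Algebra.DualNumber
import Mathlib.RingTheory.AdjoinRoot
import Mathlib.RingTheory.Polynomial.Cyclotomic.Expand
import Mathlib.NumberTheory.NumberField.Units.DirichletTheorem
import Mathlib.NumberTheory.NumberField.Cyclotomic.Embeddings
import Mathlib.LinearAlgebra.Dimension.Constructions

/-!
# A finite criterion for the Kummer property

If `(p-1)/2` units have linearly independent logarithmic derivatives in `𝔽_p[t]/(t^k)`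
(where `ζ = 1 + t`, `k ≤ p - 2`), then every unit congruent to an integer mod `p` is a `p`-th power
(`kummerProperty_of_logDeriv`).
-/

set_option autoImplicit false

open scoped NumberField DualNumber
open Polynomial NumberField

namespace Fermat.Agent.RegularFLT

/-- `𝔽_p[t]/(t^k)`. -/
abbrev TruncPoly (p k : ℕ) := AdjoinRoot (X ^ k : (ZMod p)[X])

/-- The image `(1 + t) + (1 + t) ε` of `ζ`. -/
noncomputable def logPoint (p k : ℕ) : DualNumber (TruncPoly p k) :=
  TrivSqZeroExt.inl (1 + AdjoinRoot.root _) + TrivSqZeroExt.inr (1 + AdjoinRoot.root _)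

/-- Powers of the variable vanish from the truncation order on. -/
theorem root_pow_eq_zero {p k n : ℕ} (h : k ≤ n) :
    (AdjoinRoot.root (X ^ k : (ZMod p)[X]) : TruncPoly p k) ^ n = 0 := by
  have : (AdjoinRoot.root (X ^ k : (ZMod p)[X]) : TruncPoly p k) ^ k = 0 := by
    rw [← AdjoinRoot.mk_X, ← map_pow, AdjoinRoot.mk_self]
  exact pow_eq_zero_of_le h this

theorem cyclotomic_prime_eq_sub_one_pow (p : ℕ) [hp : Fact p.Prime] :
    cyclotomic p (ZMod p) = (X - 1) ^ (p - 1) := by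
  refine mul_right_cancel₀ (show (X - 1 : (ZMod p)[X]) ≠ 0 from ?_) ?_
  · rw [← C_1]; exact X_sub_C_ne_zero 1
  · rw [cyclotomic_prime_mul_X_sub_one, ← pow_succ, Nat.sub_add_cancel hp.out.one_le,
      sub_pow_char, one_pow]

theorem aeval_logPoint_cyclotomic {p k : ℕ} [hp : Fact p.Prime] (hk : k + 2 ≤ p) :
    aeval (logPoint p k) (cyclotomic p ℤ) = 0 := by
  rw [← aeval_map_algebraMap (ZMod p), map_cyclotomic, cyclotomic_prime_eq_sub_one_pow,
    map_pow, map_sub, map_one, aeval_X]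
  apply TrivSqZeroExt.ext
  · rw [TrivSqZeroExt.fst_pow]
    simp [logPoint, root_pow_eq_zero (p := p) (k := k) (n := p - 1) (by omega)]
  · rw [TrivSqZeroExt.snd_pow]
    simp [logPoint, Nat.pred_eq_sub_one,
      root_pow_eq_zero (p := p) (k := k) (n := p - 1 - 1) (by omega)]

section LogDeriv

variable {p : ℕ} {K : Type*} [Field K]

/-- The logarithmic derivative of a unit. -/
noncomputable def logDeriv {k : ℕ} (ψ : 𝓞 K →+* DualNumber (TruncPoly p k)) (u : (𝓞 K)ˣ) :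
    TruncPoly p k :=
  (ψ (↑u⁻¹ : 𝓞 K)).fst * (ψ (u : 𝓞 K)).snd

theorem fst_inv_mul {k : ℕ} (ψ : 𝓞 K →+* DualNumber (TruncPoly p k)) (u : (𝓞 K)ˣ) :
    (ψ (↑u⁻¹ : 𝓞 K)).fst * (ψ (u : 𝓞 K)).fst = 1 := by
  rw [← TrivSqZeroExt.fst_mul, ← map_mul, u.inv_mul, map_one, TrivSqZeroExt.fst_one]

theorem logDeriv_mul {k : ℕ} (ψ : 𝓞 K →+* DualNumber (TruncPoly p k)) (u v : (𝓞 K)ˣ) :
    logDeriv ψ (u * v) = logDeriv ψ u + logDeriv ψ v := by
  simp only [logDeriv, mul_inv, Units.val_mul, map_mul, TrivSqZeroExt.fst_mul, DualNumber.snd_mul]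
  linear_combination (ψ (↑v⁻¹ : 𝓞 K)).fst * (ψ (v : 𝓞 K)).snd * fst_inv_mul ψ u +
    (ψ (↑u⁻¹ : 𝓞 K)).fst * (ψ (u : 𝓞 K)).snd * fst_inv_mul ψ v

/-- A way to compute `logDeriv` without inverting. -/
theorem logDeriv_eq_of_mul_eq {k : ℕ} (ψ : 𝓞 K →+* DualNumber (TruncPoly p k)) (u : (𝓞 K)ˣ)
    {w : TruncPoly p k} (h : (ψ (u : 𝓞 K)).fst * w = (ψ (u : 𝓞 K)).snd) :
    logDeriv ψ u = w := by
  rw [logDeriv, ← h, ← mul_assoc, fst_inv_mul ψ u, one_mul]

theorem logDeriv_eq_zero {k : ℕ} (ψ : 𝓞 K →+* DualNumber (TruncPoly p k)) (u : (𝓞 K)ˣ)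
    {n : ℤ} (h : (p : 𝓞 K) ∣ (u : 𝓞 K) - n) : logDeriv ψ u = 0 := by
  obtain ⟨x, hx⟩ := h
  have h0 : (p : DualNumber (TruncPoly p k)) = 0 := by
    rw [← map_natCast (algebraMap (ZMod p) (DualNumber (TruncPoly p k))), ZMod.natCast_self,
      map_zero]
  have : ψ (u : 𝓞 K) = (n : DualNumber (TruncPoly p k)) := by
    rw [sub_eq_iff_eq_add.mp hx, map_add, map_mul, map_natCast, h0, zero_mul, zero_add,
      map_intCast]
  rw [logDeriv, this, TrivSqZeroExt.snd_intCast, mul_zero]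

end LogDeriv

variable {p : ℕ} [hp : Fact p.Prime] {K : Type*} [Field K] [NumberField K]
  [hK : IsCyclotomicExtension {p} ℚ K] {ζ : K} (hζ : IsPrimitiveRoot ζ p)

local notation "ζₒ" => IsPrimitiveRoot.toInteger hζ

include hζ hK

/-- The ring map `ζ ↦ (1 + t) + (1 + t) ε`. -/
theorem exists_logHom {k : ℕ} (hk : k + 2 ≤ p) :
    ∃ ψ : 𝓞 K →+* DualNumber (TruncPoly p k), ψ ζₒ = logPoint p k := by
  have : IsCyclotomicExtension {p ^ 1} ℚ K := by rwa [pow_one]
  have hζ' : IsPrimitiveRoot ζ (p ^ 1) := by rwa [pow_one]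
  have hgen : hζ'.integralPowerBasisOfPrimePow.gen = ζₒ :=
    IsPrimitiveRoot.integralPowerBasisOfPrimePow_gen hζ'
  have hmin : minpoly ℤ hζ'.integralPowerBasisOfPrimePow.gen = cyclotomic p ℤ := by
    rw [hgen, ← minpoly.algebraMap_eq RingOfIntegers.coe_injective]
    exact (cyclotomic_eq_minpoly hζ hp.out.pos).symm
  refine ⟨(hζ'.integralPowerBasisOfPrimePow.lift (logPoint p k) ?_).toRingHom, ?_⟩
  · rw [hmin]; exact aeval_logPoint_cyclotomic hk
  · rw [← hgen]
    exact PowerBasis.lift_gen _ _ _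

omit hζ in
/-- The finite criterion for the Kummer property. -/
theorem kummerProperty_of_logDeriv {k : ℕ} (ψ : 𝓞 K →+* DualNumber (TruncPoly p k))
    (hp3 : 3 ≤ p) {n : ℕ} (hn : 2 * n + 1 = p) (v : Fin n → (𝓞 K)ˣ)
    (hv : LinearIndependent (ZMod p) (fun i => logDeriv ψ (v i))) : KummerProperty p K := by
  classical
  let L : Additive (𝓞 K)ˣ →+ TruncPoly p k :=
    AddMonoidHom.mk' (fun u => logDeriv ψ (Additive.toMul u)) fun u v => logDeriv_mul ψ _ _
  have hLz : ∀ (u : (𝓞 K)ˣ) (e : ℤ),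
      logDeriv ψ (u ^ e) = (e : ZMod p) • logDeriv ψ u := fun u e => by
    have := map_zsmul L e (Additive.ofMul u)
    rw [← ofMul_zpow, ← Int.cast_smul_eq_zsmul (ZMod p)] at this
    exact this
  have hLprod : ∀ (s : Finset (Fin (Units.rank K))) (f : Fin (Units.rank K) → (𝓞 K)ˣ),
      logDeriv ψ (∏ i ∈ s, f i) = ∑ i ∈ s, logDeriv ψ (f i) := fun s f => by
    have := map_sum L (fun i => Additive.ofMul (f i)) s
    rw [← ofMul_prod] at this
    exact this
  obtain ⟨g, hg⟩ := IsCyclic.exists_generator (α := Units.torsion K)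
  let G : Fin (Units.rank K + 1) → (𝓞 K)ˣ := Fin.cons (g : (𝓞 K)ˣ) (Units.fundSystem K)
  have hgen : ∀ u : (𝓞 K)ˣ, ∃ e : Fin (Units.rank K + 1) → ℤ, u = ∏ i, G i ^ e i := fun u => by
    obtain ⟨⟨t, e⟩, h, -⟩ := Units.exist_unique_eq_mul_prod K u
    obtain ⟨j, hj⟩ := Subgroup.mem_zpowers_iff.mp (hg t)
    refine ⟨Fin.cons j e, ?_⟩
    rw [Fin.prod_univ_succ]
    simp only [G, Fin.cons_zero, Fin.cons_succ]
    rw [← Subgroup.coe_zpow, hj]
    exact h
  have hL : ∀ e : Fin (Units.rank K + 1) → ℤ,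
      logDeriv ψ (∏ i, G i ^ e i) = ∑ i, (e i : ZMod p) • logDeriv ψ (G i) := fun e => by
    rw [Fin.prod_univ_succ, Fin.sum_univ_succ, logDeriv_mul, hLz, hLprod]
    simp only [hLz]
  have hrank : Units.rank K + 1 = n := by
    have h1 : InfinitePlace.nrRealPlaces K = 0 :=
      IsCyclotomicExtension.Rat.nrRealPlaces_eq_zero (n := p) K (by omega)
    have h2 : InfinitePlace.nrComplexPlaces K = p.totient / 2 :=
      IsCyclotomicExtension.Rat.nrComplexPlaces_eq_totient_div_two p K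
    rw [Nat.totient_prime hp.out] at h2
    rw [Units.rank, InfinitePlace.card_eq_nrRealPlaces_add_nrComplexPlaces, h1, h2]
    omega
  have hle : Submodule.span (ZMod p) (Set.range fun i => logDeriv ψ (v i)) ≤
      Submodule.span (ZMod p) (Set.range fun i => logDeriv ψ (G i)) := by
    rw [Submodule.span_le]
    rintro _ ⟨i, rfl⟩
    obtain ⟨e, he⟩ := hgen (v i)
    simp only [he, hL]
    exact Submodule.sum_mem _ fun j _ =>
      Submodule.smul_mem _ _ (Submodule.subset_span ⟨j, rfl⟩)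
  have hindep : LinearIndependent (ZMod p) (fun i => logDeriv ψ (G i)) := by
    rw [linearIndependent_iff_card_le_finrank_span, Fintype.card_fin]
    refine hrank.trans_le ?_
    calc n = Module.finrank (ZMod p)
          (Submodule.span (ZMod p) (Set.range fun i => logDeriv ψ (v i))) := by
          rw [finrank_span_eq_card hv, Fintype.card_fin]
      _ ≤ _ := by
          have := FiniteDimensional.span_of_finite (ZMod p)
            (Set.finite_range fun i => logDeriv ψ (G i))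
          exact Submodule.finrank_mono hle
  rintro u ⟨m, hm⟩
  obtain ⟨e, rfl⟩ := hgen u
  have h0 := logDeriv_eq_zero ψ _ hm
  rw [hL] at h0
  have he : ∀ i, (p : ℤ) ∣ e i := fun i => (ZMod.intCast_zmod_eq_zero_iff_dvd _ _).mp
    (Fintype.linearIndependent_iff.mp hindep _ h0 i)
  choose f hf using he
  refine ⟨∏ i, G i ^ f i, ?_⟩
  rw [← Finset.prod_pow]
  refine Finset.prod_congr rfl fun i _ => ?_
  rw [hf i, mul_comm, zpow_mul, zpow_natCast]

omit [NumberField K] hK in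
/-- The cyclotomic unit `1 + ζ + ⋯ + ζ^(a-1)`. -/
theorem exists_cycloUnit {a : ℕ} (ha : Nat.Coprime a p) :
    ∃ u : (𝓞 K)ˣ, (u : 𝓞 K) = ∑ i ∈ Finset.range a, ζₒ ^ i :=
  ⟨_, (IsUnit.unit_spec
    (hζ.toInteger_isPrimitiveRoot.geom_sum_isUnit (hp.out.two_le) ha))⟩

end Fermat.Agent.RegularFLT
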